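import Fermat.Agent.TW.FreeH
import Fermat.Agent.HeckeHom.Faithful
import Fermat.Agent.LevelRaise.Raise
import Fermat.Agent.ALCoh.Ident

/-!
# The Hecke algebra acts faithfully on the lattice with coefficients
-/

set_option autoImplicit false
set_option linter.unusedSectionVars false
set_option linter.style.haveILetI false

open scoped TensorProduct MatrixGroups
open Fermat.Agent.KumG Fermat.Agent.TW

namespace Fermat.Agent.FlT

noncomputable section

section abs

variable {O R L : Type} [CommRing O] [CommRing R] [AddCommGroup L] (a : R →+* Module.End ℤ L)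

/-- the action with coefficients -/
def bcAct : O ⊗[ℤ] R →ₗ[O] Module.End O (O ⊗[ℤ] L) :=
  LinearMap.liftBaseChange O (R := ℤ)
    { toFun := fun r => (a r).baseChange O
      map_add' := fun r s => by rw [map_add, LinearMap.baseChange_add]
      map_smul' := fun n r => by
        rw [map_zsmul]
        refine LinearMap.ext fun x => ?_
        induction x using TensorProduct.induction_on with
        | zero => rw [map_zero, map_zero]
        | tmul c l =>
          rw [LinearMap.baseChange_tmul]
          change c ⊗ₜ[ℤ] (n • a r l) = n • (c ⊗ₜ[ℤ] (a r l))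
          rw [TensorProduct.tmul_smul]
        | add x y hx hy => rw [map_add, map_add, hx, hy] }

theorem bcAct_tmul (c : O) (r : R) : bcAct a (c ⊗ₜ[ℤ] r) = c • (a r).baseChange O := by
  rw [bcAct, LinearMap.liftBaseChange_tmul]
  rfl

theorem bcAct_mul (x : O ⊗[ℤ] R) (r : R) :
    bcAct a (x * ((1 : O) ⊗ₜ[ℤ] r)) = bcAct a x * (a r).baseChange O := by
  induction x using TensorProduct.induction_on with
  | zero => rw [zero_mul, map_zero, zero_mul]
  | tmul c s =>
    rw [Algebra.TensorProduct.tmul_mul_tmul, mul_one, bcAct_tmul, bcAct_tmul, map_mul,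
      smul_mul_assoc]
    congr 1
    exact LinearMap.baseChange_comp _ _
  | add x y hx hy => rw [add_mul, map_add, map_add, hx, hy, add_mul]

theorem bcAct_injective [Module.Flat ℤ O] [Module.Free ℤ L] [Module.Finite ℤ L]
    (ha : Function.Injective a) : Function.Injective (bcAct (O := O) a) := by
  classical
  rw [injective_iff_map_eq_zero]
  intro z hz
  let b := Module.Free.chooseBasis ℤ L
  let ι := Module.Free.ChooseBasisIndex ℤ L
  let M : R →ₗ[ℤ] (ι × ι → ℤ) :=
    { toFun := fun r ij => b.repr (a r (b ij.1)) ij.2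
      map_add' := fun r s => by
        funext ij
        rw [map_add, LinearMap.add_apply, map_add]
        rfl
      map_smul' := fun n r => by
        funext ij
        rw [map_zsmul, LinearMap.smul_apply, map_zsmul]
        rfl }
  have hM : Function.Injective M := by
    intro r s hrs
    apply ha
    refine b.ext fun i => ?_
    apply b.repr.injective
    refine Finsupp.ext fun j => ?_
    exact congrFun hrs (i, j)
  have hM' := Module.Flat.lTensor_preserves_injective_linearMap (M := O) M hM
  have key : ∀ z : O ⊗[ℤ] R, ∀ ij : ι × ι,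
      TensorProduct.piScalarRight ℤ ℤ O (ι × ι) (LinearMap.lTensor O M z) ij =
        (b.baseChange O).repr (bcAct a z (b.baseChange O ij.1)) ij.2 := by
    intro z ij
    induction z using TensorProduct.induction_on with
    | zero => rw [map_zero, map_zero, map_zero, LinearMap.zero_apply, map_zero]; rfl
    | tmul c r =>
      rw [LinearMap.lTensor_tmul, TensorProduct.piScalarRight_apply,
        TensorProduct.piScalarRightHom_tmul, bcAct_tmul, LinearMap.smul_apply,
        Module.Basis.baseChange_apply, LinearMap.baseChange_tmul, map_smul, Finsupp.smul_apply,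
        Module.Basis.baseChange_repr_tmul]
      change (b.repr (a r (b ij.1)) ij.2) • c = _
      rw [smul_eq_mul, zsmul_eq_mul, mul_comm, zsmul_one]
    | add x y hx hy =>
      rw [map_add, map_add, Pi.add_apply, hx, hy, map_add, LinearMap.add_apply, map_add]
      rfl
  apply hM'
  rw [map_zero]
  apply (TensorProduct.piScalarRight ℤ ℤ O (ι × ι)).injective
  funext ij
  rw [key, hz, LinearMap.zero_apply, map_zero, map_zero]
  rfl

end abs

section hecke

variable {O : Type} [CommRing O] [Module.Flat ℤ O] {N : ℕ} [NeZero N] {S : Set ℕ}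
  (hNS : ∀ l, l.Prime → l ∣ N → l ∈ S)

theorem actL_eq_TG (i : IS S) :
    HeckeHom.actL N S (CuspForm.heckeAlgebra.T i.2.1 (i.not_dvd hNS) i.2.2) =
      TG i.2.1 (i.not_dvd hNS) := by
  refine LinearMap.ext fun x => Subtype.ext ?_
  rw [HeckeHom.actL_T, ALCoh.opT_eq]
  rfl

theorem bcAct_aeval (s : TS O S) :
    bcAct (O := O) (HeckeHom.actL N S) (MvPolynomial.aeval (fun i : IS S =>
      ((1 : O) ⊗ₜ[ℤ] CuspForm.heckeAlgebra.T i.2.1 (i.not_dvd hNS) i.2.2 :
        O ⊗[ℤ] CuspForm.heckeAlgebra N 2 S)) s) = phiG O hNS s := by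
  induction s using MvPolynomial.induction_on with
  | C r =>
    rw [MvPolynomial.aeval_C, phiG, evC_C]
    rw [Algebra.TensorProduct.algebraMap_apply, bcAct_tmul, map_one]
    refine LinearMap.ext fun x => ?_
    rw [LinearMap.smul_apply, Module.algebraMap_end_apply]
    congr 1
    exact LinearMap.congr_fun LinearMap.baseChange_id x
  | add p q hp hq => rw [map_add, map_add, map_add, hp, hq]
  | mul_X p i hp =>
    rw [map_mul, MvPolynomial.aeval_X, bcAct_mul, hp, map_mul, phiG_X, actL_eq_TG hNS]

/-- **faithfulness**: relations between Hecke operators on the lattice hold in every quotient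
of the Hecke algebra -/
theorem aeval_eq_zero {T : Type} [CommRing T] [Algebra O T]
    (π : CuspForm.heckeAlgebra N 2 S →+* T) {H : Subgroup (ZMod N)ˣ}
    [hH : Fact ((-1 : (ZMod N)ˣ) ∈ H)] {s : TS O S} (hs : phiH O H hNS s = 0) :
    MvPolynomial.aeval (fun i : IS S =>
      π (CuspForm.heckeAlgebra.T i.2.1 (i.not_dvd hNS) i.2.2)) s = 0 := by
  have hinj : Function.Injective (resO O N H) :=
    Module.Flat.lTensor_preserves_injective_linearMap (M := O) (resH N H) resH_injective
  have h1 : phiG O hNS s = 0 := by
    refine LinearMap.ext fun x => hinj ?_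
    rw [resO_phi, hs, LinearMap.zero_apply, LinearMap.zero_apply, map_zero]
  rw [← bcAct_aeval hNS] at h1
  haveI : (ALCoh.GG N).FiniteIndex := inferInstance
  have h2 := bcAct_injective (O := O) (L := LZ (ALCoh.GG N)) (HeckeHom.actL N S)
    (HeckeHom.actL_injective N) (h1.trans (map_zero _).symm)
  let Pr : O ⊗[ℤ] CuspForm.heckeAlgebra N 2 S →ₐ[O] T :=
    Algebra.TensorProduct.lift (Algebra.ofId O T) (π.toIntAlgHom) (fun _ _ => mul_comm _ _)
  have h3 := congrArg Pr h2
  rw [map_zero, ← AlgHom.comp_apply, MvPolynomial.comp_aeval] at h3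
  rw [← h3]
  congr 1
  refine MvPolynomial.algHom_ext fun i => ?_
  rw [MvPolynomial.aeval_X, MvPolynomial.aeval_X]
  exact ((Algebra.TensorProduct.lift_tmul (Algebra.ofId O T) π.toIntAlgHom _ 1 _).trans (by
    rw [map_one, one_mul]; rfl)).symm

end hecke

end

end Fermat.Agent.FlT
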