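import Fermat.Agent.FFG.Closure

/-!
# Flatness passes to subquotients given by correspondences
-/

set_option autoImplicit false
set_option linter.unusedSectionVars false
set_option linter.style.haveILetI false

noncomputable section

namespace Fermat.Agent.FlT

open Fermat.Agent.FFG

variable {R Ω : Type} [CommRing R] [IsDomain R] [IsPrincipalIdealRing R] [Field Ω] [Algebra R Ω] [FixBase R Ω]
  {X V : Type} [AddCommGroup X] [AddCommGroup V] {act : (Ω ≃ₐ[R] Ω) → X → X}
  {act' : (Ω ≃ₐ[R] Ω) → V → V} {H : Subalgebra R (X → Ω)}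

/-- a subquotient, given by a stable correspondence -/
theorem exists_of_corr [Finite X] (hH : IsHopfFn act H) (C : AddSubgroup (X × V))
    (h0 : ∀ v, ((0 : X), v) ∈ C → v = 0) (hs : ∀ v, ∃ x, (x, v) ∈ C)
    (hact : ∀ σ x v, (x, v) ∈ C → (act σ x, act' σ v) ∈ C) :
    ∃ H' : Subalgebra R (V → Ω), IsHopfFn act' H' := by
  let actC : (Ω ≃ₐ[R] Ω) → C → C := fun σ z =>
    ⟨(act σ z.1.1, act' σ z.1.2), hact σ z.1.1 z.1.2 z.2⟩
  let i : C →+ X := (AddMonoidHom.fst X V).comp C.subtype
  let π : C →+ V := (AddMonoidHom.snd X V).comp C.subtype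
  have hi : Function.Injective i := by
    rw [injective_iff_map_eq_zero]
    rintro ⟨⟨x, v⟩, hz⟩ h
    have hx : x = 0 := h
    subst hx
    have := h0 v hz
    subst this
    rfl
  have hπ : Function.Surjective π := by
    intro v
    obtain ⟨x, hx⟩ := hs v
    exact ⟨⟨(x, v), hx⟩, rfl⟩
  haveI : Finite C := Finite.of_injective i hi
  have h1 : IsHopfFn actC (resH H i) := hH.restrict hi (fun σ z => rfl)
  exact ⟨_, h1.quot hπ (actW := act') (fun σ z => rfl)⟩

end Fermat.Agent.FlT
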