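import Fermat.Agent.GalRep.Carayol

/-!
# Residual irreducibility in terms of traces
-/

set_option autoImplicit false
set_option linter.style.haveILetI false
set_option linter.unusedSectionVars false

namespace Fermat.Agent.FlT

open IsLocalRing Matrix Fermat.Agent.GalRep
open Fermat.Agent.DefRing (toMatRep toMatRep_apply toMatRep_cont residual_toMatrix
  span_eq_top_of_absIrr)

variable {A : Type} [CommRing A] [IsLocalRing A]

theorem span_map_eq_top (ρ : GaloisRepAdic A) (habs : ρ.residual.IsAbsolutelyIrreducible)
    (b : Module.Basis (Fin 2) A ρ.V) :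
    Submodule.span (ResidueField A) (Set.range fun σ => (toMatRep ρ b σ).map (residue A)) = ⊤ := by
  have h0 := span_eq_top_of_absIrr ρ.residual habs
    (Algebra.TensorProduct.basis (ResidueField A) b)
  have e : (fun σ => (toMatRep ρ b σ).map (residue A)) = fun σ => LinearMap.toMatrix
    (Algebra.TensorProduct.basis (ResidueField A) b :
      Module.Basis (Fin 2) (ResidueField A) ρ.residual.V)
    (Algebra.TensorProduct.basis (ResidueField A) b :
      Module.Basis (Fin 2) (ResidueField A) ρ.residual.V) (ρ.residual.ρ σ) :=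
    funext fun σ => (residual_toMatrix ρ b σ).symm
  rw [e]
  exact h0

theorem trace_expand {k : Type*} [CommRing k] (C G K : Matrix (Fin 2) (Fin 2) k) :
    ((1 + C) * G * (1 - C) * K).trace = (G * K).trace + (C * (G * K)).trace -
      ((G * C * K).trace + (C * (G * C * K)).trace) := by
  rw [← Matrix.trace_add, ← Matrix.trace_add, ← Matrix.trace_sub]
  congr 1
  simp only [Matrix.add_mul, Matrix.mul_sub, Matrix.sub_mul, Matrix.one_mul, Matrix.mul_one,
    Matrix.mul_assoc]

theorem exists_irr (ρ : GaloisRepAdic A) (habs : ρ.residual.IsAbsolutelyIrreducible)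
    (b : Module.Basis (Fin 2) A ρ.V) {c : GQ} (h2 : (2 : ResidueField A) ≠ 0)
    (hc : (toMatRep ρ b c).det = -1) : ∃ g₀ k₀ : GQ,
    residue A ((toMatRep ρ b (g₀ * k₀)).trace + (toMatRep ρ b (c * (g₀ * k₀))).trace -
      ((toMatRep ρ b (g₀ * c * k₀)).trace + (toMatRep ρ b (c * (g₀ * c * k₀))).trace)) ≠ 0 := by
  classical
  by_contra hcon
  push Not at hcon
  obtain ⟨m, hm⟩ : ∃ m : GQ → Matrix (Fin 2) (Fin 2) (ResidueField A),
    m = fun σ => (residue A).mapMatrix (toMatRep ρ b σ) := ⟨_, rfl⟩
  have hmul : ∀ g k, m (g * k) = m g * m k := fun g k => by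
    simp only [hm, map_mul]
  have htr : ∀ g, residue A (toMatRep ρ b g).trace = (m g).trace := fun g => by
    rw [Matrix.trace_fin_two, Matrix.trace_fin_two, map_add, hm]
    rfl
  have hspan : ∀ X, X ∈ Submodule.span (ResidueField A) (Set.range m) := by
    intro X
    have h := span_map_eq_top ρ habs b
    have h' : Set.range m = Set.range fun σ => (toMatRep ρ b σ).map (residue A) := by
      rw [hm]; rfl
    rw [h', h]; trivial
  obtain ⟨P, hP⟩ : ∃ P, P = 1 + m c := ⟨_, rfl⟩
  obtain ⟨Q, hQ⟩ : ∃ Q, Q = 1 - m c := ⟨_, rfl⟩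
  have h1 : ∀ g k, (P * m g * Q * m k).trace = 0 := by
    intro g k
    have h := hcon g k
    rw [map_sub, map_add, map_add, htr, htr, htr, htr] at h
    have e1 : m (g * k) = m g * m k := hmul _ _
    have e2 : m (c * (g * k)) = m c * (m g * m k) := by rw [hmul, hmul]
    have e3 : m (g * c * k) = m g * m c * m k := by rw [hmul, hmul]
    have e4 : m (c * (g * c * k)) = m c * (m g * m c * m k) := by rw [hmul, e3]
    rw [e1, e2, e3, e4] at h
    rw [hP, hQ, trace_expand]
    exact h
  have h3 : ∀ X Y, (P * X * Q * Y).trace = 0 := by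
    intro X Y
    have hX := hspan X
    have hY := hspan Y
    induction hX using Submodule.span_induction with
    | mem X hX =>
      obtain ⟨g, rfl⟩ := hX
      induction hY using Submodule.span_induction with
      | mem Y hY =>
        obtain ⟨k, rfl⟩ := hY
        exact h1 g k
      | zero => simp
      | add Y Y' _ _ h h' => rw [Matrix.mul_add, Matrix.trace_add, h, h', add_zero]
      | smul a Y _ h => rw [Matrix.mul_smul, Matrix.trace_smul, h, smul_zero]
    | zero => simp
    | add X X' _ _ h h' =>
      rw [Matrix.mul_add, Matrix.add_mul, Matrix.add_mul, Matrix.trace_add, h, h', add_zero]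
    | smul a X _ h => rw [Matrix.mul_smul, Matrix.smul_mul, Matrix.smul_mul, Matrix.trace_smul, h,
        smul_zero]
  have h4 : ∀ X, P * X * Q = 0 := by
    intro X
    ext i j
    have h := h3 X (Matrix.single j i 1)
    rw [Matrix.trace_mul_single] at h
    simpa using h
  have hdet : (m c).det = -1 := by
    have h := congrArg (residue A) hc
    rw [map_neg, map_one, RingHom.map_det] at h
    rw [hm]
    exact h
  have hne : (1 : ResidueField A) ≠ -1 := by
    intro h
    apply h2
    rw [← one_add_one_eq_two]
    nth_rewrite 1 [h]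
    ring
  have hP0 : P ≠ 0 := by
    intro h
    have h5 : m c = -1 := by rw [hP] at h; exact eq_neg_of_add_eq_zero_right h
    rw [h5, Matrix.det_neg, Matrix.det_one] at hdet
    apply hne
    simpa using hdet
  have hQ0 : Q ≠ 0 := by
    intro h
    have h5 : m c = 1 := by rw [hQ] at h; exact (sub_eq_zero.1 h).symm
    rw [h5, Matrix.det_one] at hdet
    exact hne hdet
  obtain ⟨a, b', hab⟩ : ∃ a b', P a b' ≠ 0 := by
    by_contra h
    push Not at h
    exact hP0 (Matrix.ext h)
  obtain ⟨d, e, hde⟩ : ∃ a b', Q a b' ≠ 0 := by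
    by_contra h
    push Not at h
    exact hQ0 (Matrix.ext h)
  have h5 := congrFun (congrFun (h4 (Matrix.single b' d 1)) a) e
  rw [Matrix.mul_apply, Finset.sum_eq_single d, Matrix.mul_single_apply_same, mul_one,
    Matrix.zero_apply] at h5
  · exact (mul_ne_zero hab hde) h5
  · intro j _ hj
    rw [Matrix.mul_single_apply_of_ne _ _ _ _ _ hj, zero_mul]
  · intro h
    exact absurd (Finset.mem_univ _) h

end Fermat.Agent.FlT
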