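import Fermat.Agent.FlT.Mod
import Fermat.Agent.FFG.Level
import Fermat.Agent.FFG.Desc4

/-!
# Subquotients of the lattice are flat
-/

set_option autoImplicit false
set_option linter.unusedSectionVars false
set_option linter.style.haveILetI false

open scoped TensorProduct
open IsLocalRing
open Fermat.Agent.KumG Fermat.Agent.GalRep Fermat.Agent.Places Fermat.Agent.Cheb Fermat.Agent.TW
open Fermat.Agent.FFG Fermat.Agent.Flat

namespace Fermat.Agent.FlT

noncomputable section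

section abs

/-- generators modulo `p^m` -/
theorem exists_gen {O : Type} [CommRing O] {c : O} {n : ℕ} (o : Fin n → O)
    (ho : ∀ x : O, ∃ (z : Fin n → ℤ) (y : O), x = ∑ k, z k • o k + c * y)
    {L : Type} [AddCommGroup L] (x : O ⊗[ℤ] L) :
    ∃ (f : Fin n → L) (z : O ⊗[ℤ] L), x = ∑ k, o k • ((1 : O) ⊗ₜ[ℤ] f k) + c • z := by
  induction x using TensorProduct.induction_on with
  | zero => exact ⟨0, 0, by simp⟩
  | tmul a l =>
    obtain ⟨z, y, h⟩ := ho a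
    refine ⟨fun k => z k • l, y ⊗ₜ l, ?_⟩
    conv_lhs => rw [h]
    rw [TensorProduct.add_tmul, TensorProduct.sum_tmul]
    congr 1
    refine Finset.sum_congr rfl fun k _ => ?_
    rw [TensorProduct.tmul_smul, TensorProduct.smul_tmul', TensorProduct.smul_tmul',
      smul_comm, smul_eq_mul, mul_one]
  | add x y hx hy =>
    obtain ⟨f, z, h⟩ := hx
    obtain ⟨f', z', h'⟩ := hy
    refine ⟨f + f', z + z', ?_⟩
    conv_lhs => rw [h, h']
    simp only [Pi.add_apply, TensorProduct.tmul_add, smul_add, Finset.sum_add_distrib]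
    abel

/-- generators of a finite quotient -/
theorem exists_gens {O : Type} [CommRing O] (c : O) [Finite (O ⧸ Ideal.span {c})] :
    ∃ (b : ℕ) (o : Fin b → O),
      ∀ x : O, ∃ (z : Fin b → ℤ) (y : O), x = ∑ k, z k • o k + c * y := by
  classical
  obtain ⟨b, ⟨eb⟩⟩ := Finite.exists_equiv_fin (O ⧸ Ideal.span {c})
  choose o ho' using fun k => Ideal.Quotient.mk_surjective (eb.symm k)
  refine ⟨b, o, fun x => ?_⟩
  have h1 : x - o (eb (Ideal.Quotient.mk _ x)) ∈ Ideal.span {c} := by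
    rw [← Ideal.Quotient.eq, ho', Equiv.symm_apply_apply]
  obtain ⟨y, hy⟩ := Ideal.mem_span_singleton.1 h1
  refine ⟨Pi.single (eb (Ideal.Quotient.mk _ x)) 1, y, ?_⟩
  rw [Finset.sum_eq_single (eb (Ideal.Quotient.mk _ x))]
  · rw [Pi.single_eq_same, one_smul, ← hy]
    ring
  · intro k _ hk
    rw [Pi.single_eq_of_ne hk, zero_smul]
  · intro h
    exact absurd (Finset.mem_univ _) h

/-- linear combinations -/
def Lam {O L P : Type} [CommRing O] [AddCommGroup L] [AddCommGroup P] [Module O P] (J : Type)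
    {b : ℕ} (o : Fin b → O) (τ : O ⊗[ℤ] L →ₗ[O] P) : (J × Fin b → L) →+ (J → P) where
  toFun f j := ∑ k, o k • τ ((1 : O) ⊗ₜ[ℤ] f (j, k))
  map_zero' := by
    funext j
    refine Finset.sum_eq_zero fun k _ => ?_
    rw [Pi.zero_apply, TensorProduct.tmul_zero, map_zero, smul_zero]
  map_add' f g := by
    funext j
    change ∑ k, o k • τ ((1 : O) ⊗ₜ[ℤ] (f (j, k) + g (j, k))) = _ + _
    rw [← Finset.sum_add_distrib]
    refine Finset.sum_congr rfl fun k _ => ?_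
    rw [TensorProduct.tmul_add, map_add, smul_add]

theorem Lam_apply {O L P : Type} [CommRing O] [AddCommGroup L] [AddCommGroup P] [Module O P]
    {J : Type} {b : ℕ} (o : Fin b → O) (τ : O ⊗[ℤ] L →ₗ[O] P) (f : J × Fin b → L) (j : J) :
    Lam J o τ f j = ∑ k, o k • τ ((1 : O) ⊗ₜ[ℤ] f (j, k)) := rfl

theorem Lam_nsmul {O L P : Type} [CommRing O] [AddCommGroup L] [AddCommGroup P] [Module O P]
    {J : Type} {b : ℕ} (o : Fin b → O) (τ : O ⊗[ℤ] L →ₗ[O] P) (c : ℕ) (f : J × Fin b → L) :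
    Lam J o τ (c • f) = (c : O) • Lam J o τ f := by
  rw [map_nsmul, Nat.cast_smul_eq_nsmul]

variable {O : Type} [CommRing O] {L X P B V' : Type} [AddCommGroup L] [AddCommGroup X]
  [AddCommGroup P] [Module O P] [AddCommGroup B] [Module O B] [AddCommGroup V'] {J : Type}
  [Fintype J] {b : ℕ} (o : Fin b → O) (τ : O ⊗[ℤ] L →ₗ[O] P) (mk : L →+ X) (c : ℕ)
  (Φ : B →ₗ[O] (J → P)) (q : B →+ V')

/-- the correspondence -/
def corrC : AddSubgroup ((J × Fin b → X) × V') where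
  carrier := {wv | ∃ (f : J × Fin b → L) (x : B) (y : J → P),
    (∀ k, mk (f k) = wv.1 k) ∧ Lam J o τ f = Φ x + (c : O) • y ∧ wv.2 = q x}
  add_mem' := by
    rintro ⟨w, v⟩ ⟨w', v'⟩ ⟨f, x, y, h1, h2, h3⟩ ⟨f', x', y', h1', h2', h3'⟩
    refine ⟨f + f', x + x', y + y', fun k => ?_, ?_, ?_⟩
    · rw [Pi.add_apply, map_add, h1, h1']
      rfl
    · rw [map_add, map_add, h2, h2', smul_add]
      abel
    · rw [map_add]
      exact congrArg₂ (· + ·) h3 h3'
  zero_mem' := ⟨0, 0, 0, fun k => by rw [Pi.zero_apply, map_zero]; rfl, by simp, by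
    rw [map_zero]; rfl⟩
  neg_mem' := by
    rintro ⟨w, v⟩ ⟨f, x, y, h1, h2, h3⟩
    refine ⟨-f, -x, -y, fun k => ?_, ?_, ?_⟩
    · rw [Pi.neg_apply, map_neg, h1]
      rfl
    · rw [map_neg, map_neg, h2, smul_neg]
      abel
    · rw [map_neg]
      exact congrArg Neg.neg h3

theorem mem_corrC {w : J × Fin b → X} {v : V'} : (w, v) ∈ corrC o τ mk c Φ q ↔
    ∃ (f : J × Fin b → L) (x : B) (y : J → P),
      (∀ k, mk (f k) = w k) ∧ Lam J o τ f = Φ x + (c : O) • y ∧ v = q x := Iff.rfl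

variable {o τ mk c Φ q}

theorem corrC_zero (hmk : ∀ f, mk f = 0 → ∃ g, f = c • g)
    (hΦ : ∀ x y, Φ x = (c : O) • y → q x = 0) {v : V'}
    (h : ((0 : J × Fin b → X), v) ∈ corrC o τ mk c Φ q) : v = 0 := by
  obtain ⟨f, x, y, h1, h2, h3⟩ := h
  choose g hg using fun k => hmk (f k) (h1 k)
  have h5 : f = c • g := funext hg
  rw [h5, Lam_nsmul] at h2
  have h8 : v = q x := h3
  rw [h8]
  refine hΦ x (Lam J o τ g - y) ?_
  rw [smul_sub, h2]
  abel

theorem corrC_surj (hτ : Function.Surjective τ)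
    (ho : ∀ x : O, ∃ (z : Fin b → ℤ) (y : O), x = ∑ k, z k • o k + (c : O) * y) (v : V')
    (hq : Function.Surjective q) : ∃ w, (w, v) ∈ corrC (J := J) o τ mk c Φ q := by
  obtain ⟨x, rfl⟩ := hq v
  choose y hy using fun j => hτ (Φ x j)
  choose f z hfz using fun j => exists_gen o ho (y j)
  refine ⟨fun k => mk (f k.1 k.2), fun k => f k.1 k.2, x, fun j => - τ (z j),
    fun k => rfl, ?_, rfl⟩
  funext j
  rw [Lam_apply]
  have h1 := congrArg τ (hfz j)
  rw [hy, map_add, map_sum, map_smul] at h1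
  have h2 : ∑ k, o k • τ ((1 : O) ⊗ₜ[ℤ] f j k) = ∑ k, τ (o k • ((1 : O) ⊗ₜ[ℤ] f j k)) :=
    Finset.sum_congr rfl fun k _ => (map_smul _ _ _).symm
  rw [h2, Pi.add_apply, h1, Pi.smul_apply, smul_neg]
  abel

theorem corrC_act {aX : X → X} {ρL : O ⊗[ℤ] L →ₗ[O] O ⊗[ℤ] L} {ρP : P →ₗ[O] P} {aV : V' → V'}
    (hmk : Function.Surjective mk) (hX : ∀ f f', mk f' = aX (mk f) → ∃ z, ρL ((1 : O) ⊗ₜ[ℤ] f) =
      (1 : O) ⊗ₜ[ℤ] f' + (c : O) • z) (hP : ∀ x, τ (ρL x) = ρP (τ x)) {ac : B → B}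
    (hac : ∀ x j, Φ (ac x) j = ρP (Φ x j)) (hV : ∀ x, q (ac x) = aV (q x))
    {w : J × Fin b → X} {v : V'} (h : (w, v) ∈ corrC o τ mk c Φ q) :
    ((fun k => aX (w k)), aV v) ∈ corrC o τ mk c Φ q := by
  obtain ⟨f, x, y, h1, h2, h3⟩ := h
  choose f' hf' using fun k => hmk (aX (w k))
  choose z hz using fun k => hX (f k) (f' k) (by rw [hf', h1])
  refine ⟨f', ac x, fun j => ρP (y j) - ∑ k, o k • τ (z (j, k)), hf', ?_, ?_⟩
  · funext j
    have h5 := congrArg ρP (congrFun h2 j)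
    rw [Lam_apply, map_sum, Pi.add_apply, map_add, Pi.smul_apply, map_smul, ← hac] at h5
    rw [Lam_apply, Pi.add_apply, Pi.smul_apply, smul_sub, ← add_sub_assoc, ← h5, Finset.smul_sum,
      ← Finset.sum_sub_distrib]
    refine Finset.sum_congr rfl fun k _ => ?_
    rw [map_smul, ← hP, hz, map_add, map_smul, smul_add, smul_comm (c : O) (o k)]
    abel
  · change aV v = _
    rw [hV]
    congr 1

end abs

section gal

variable {O : Type} [CommRing O] [IsLocalRing O] [IsNoetherianRing O]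
  [IsAdicComplete (maximalIdeal O) O] {p : ℕ} [hp : Fact p.Prime]
  (hpO : (p : O) ∈ maximalIdeal O)
  {Γ : Subgroup (Matrix.SpecialLinearGroup (Fin 2) ℤ)} [LvlG Γ] [RatG Γ] [Module.Finite ℤ (LZ Γ)]
  (ι : AlgebraicClosure ℚ →+* ℂ)
  {P : Type} [AddCommGroup P] [Module O P] [Module.Finite O P] (τ : O ⊗[ℤ] LZ Γ →ₗ[O] P)
  (hτ : Function.Surjective τ) (ρP : GQ → P →ₗ[O] P)
  (hρP : ∀ g x, τ (rhoO ι hpO g x) = ρP g (τ x))

include hρP hτ in
/-- **subquotients of powers of the lattice are flat** -/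
theorem exists_flat {A : ValuationSubring (AlgebraicClosure ℚ)} (hA : A.LiesOverPrime p)
    (hX : ∀ m : ℕ, ∀ [NeZero m], ∃ 𝓗 : Subalgebra (R0 A) (XL Γ m → AlgebraicClosure ℚ),
      IsHopfFn (fun γ : AlgebraicClosure ℚ ≃ₐ[R0 A] AlgebraicClosure ℚ => rhoF ι m (rq γ)) 𝓗)
    (hfinX : ∀ m : ℕ, ∀ [NeZero m], Finite (XL Γ m))
    (hfin : ∀ m : ℕ, Finite (O ⧸ Ideal.span {((p ^ m : ℕ) : O)}))
    {J B : Type} [Fintype J] [AddCommGroup B] [Module O B]
    (Φ : B →ₗ[O] (J → P)) (hΦ : Function.Injective Φ) (ac : GQ → B → B)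
    (hac : ∀ g x j, Φ (ac g x) j = ρP g (Φ x j))
    {V' : Type} [AddCommGroup V'] (q : B →+ V') (hq : Function.Surjective q)
    {n : ℕ} (hqn : ∀ x, q (((p ^ n : ℕ) : O) • x) = 0) (act' : GQ → V' → V')
    (hact' : ∀ g x, q (ac g x) = act' g (q x)) :
    ∃ 𝓗 : Subalgebra (R0 A) (V' → AlgebraicClosure ℚ), IsHopfFn (actI (A := A) act') 𝓗 := by
  haveI := isPrincipalIdealRing_R0 hA
  obtain ⟨c, hc⟩ := exists_div_bound Φ hΦ (p : O)
  haveI : NeZero (p ^ (n + c)) := ⟨pow_ne_zero _ hp.out.ne_zero⟩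
  obtain ⟨𝓧, h𝓧⟩ := hX (p ^ (n + c))
  haveI := hfinX (p ^ (n + c))
  haveI := hfin (n + c)
  obtain ⟨b, o, ho⟩ := exists_gens (((p ^ (n + c) : ℕ) : O))
  have hpi := IsHopfFn.pi (J := J × Fin b) (fun _ => h𝓧)
  refine exists_of_corr hpi (corrC o τ (mkX : LZ Γ →+ XL Γ (p ^ (n + c))) (p ^ (n + c)) Φ q)
    ?_ ?_ ?_
  · intro v hv
    refine corrC_zero (fun f hf => ?_) (fun x y hxy => ?_) hv
    · obtain ⟨g, hg⟩ := exists_of_mkX (φ := f) (ψ := 0) (m := p ^ (n + c)) (by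
        rw [hf, map_zero])
      exact ⟨g, by rw [hg, zero_add]⟩
    · obtain ⟨z, hz⟩ := hc n x y (by rw [hxy, Nat.cast_pow])
      rw [hz, ← Nat.cast_pow, hqn]
  · exact fun v => corrC_surj hτ ho v hq
  · intro γ w v hwv
    exact corrC_act mkX_surjective (fun f f' hff' => apx_rhoO (O := O) ι hpO (rq γ) (n + c) f f'
      hff'.symm) (hρP (rq γ)) (hac (rq γ)) (hact' (rq γ)) hwv

end gal

end

end Fermat.Agent.FlT
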