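import Fermat.Agent.TW.YH

/-!
# The map from the trace ring at level `Γ₀(N)` to a quotient of the Hecke algebra
-/

set_option autoImplicit false
set_option linter.unusedSectionVars false
set_option linter.style.haveILetI false

open scoped TensorProduct
open IsLocalRing
open Fermat.Agent.KumG Fermat.Agent.GalRep Fermat.Agent.Places Fermat.Agent.Cheb Fermat.Agent.TW

namespace Fermat.Agent.FlT

noncomputable section

variable {O : Type} [CommRing O] [IsLocalRing O] [IsNoetherianRing O]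
  [IsAdicComplete (maximalIdeal O) O] {p : ℕ} [hp : Fact p.Prime]
  {hpO : (p : O) ∈ maximalIdeal O} {N : ℕ} [NeZero N]

instance factTop : Fact ((-1 : (ZMod N)ˣ) ∈ (⊤ : Subgroup (ZMod N)ˣ)) := ⟨trivial⟩

instance subsingletonDG : Subsingleton (DG N (⊤ : Subgroup (ZMod N)ˣ)) :=
  QuotientGroup.subsingleton_quotient_top

theorem isPGroupDG : IsPGroup p (DG N (⊤ : Subgroup (ZMod N)ˣ)) := fun x =>
  ⟨0, Subsingleton.elim _ _⟩

variable {S : Set ℕ} (hNS : ∀ l, l.Prime → l ∣ N → l ∈ S)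

/-- the projection forgetting the diamond operators -/
def prD (O : Type) [CommRing O] (S : Set ℕ) (N : ℕ) : TD O S N →ₐ[O] TS O S :=
  MvPolynomial.aeval (Sum.elim MvPolynomial.X fun _ => 1)

theorem phiH_prD (s : TD O S N) : phiH O (⊤ : Subgroup (ZMod N)ˣ) hNS (prD O S N s) =
    phiD O (⊤ : Subgroup (ZMod N)ˣ) hNS s := by
  have h : (phiH O (⊤ : Subgroup (ZMod N)ˣ) hNS).comp (prD O S N) =
      phiD O (⊤ : Subgroup (ZMod N)ˣ) hNS := by
    refine MvPolynomial.algHom_ext fun i => ?_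
    rw [AlgHom.comp_apply, prD, MvPolynomial.aeval_X]
    rcases i with i | d
    · rw [Sum.elim_inl, phiH_X, phiD_inl]
    · rw [Sum.elim_inr, map_one, phiD_inr, ← DO_mk, Subsingleton.elim (QuotientGroup.mk d) 1,
        map_one]
  exact congrArg (fun f : TD O S N →ₐ[O] Module.End O (XH O N ⊤) => f s) h

theorem prD_incD (s : TS O S) : prD O S N (incD O S N s) = s := by
  have h : (prD O S N).comp (incD O S N) = AlgHom.id O (TS O S) := by
    refine MvPolynomial.algHom_ext fun i => ?_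
    rw [AlgHom.comp_apply, incD_X, prD, MvPolynomial.aeval_X]
    rfl
  exact congrArg (fun f : TS O S →ₐ[O] TS O S => f s) h

variable {hNS} (ι : AlgebraicClosure ℚ →+* ℂ) {t : GQ → ResidueField O}
  {θ : TS O S →ₐ[O] ResidueField O} {e : TS O S} [Nontrivial (YH ⊤ hNS e)]
  [Module.Free O (YH ⊤ hNS e)]
  (h : HG hpO S t (psiY ⊤ hNS e) (thetaD θ N) (rhoY hpO ι ⊤ hNS e))
  {T : Type} [CommRing T] [Algebra O T] (κ : TS O S →ₐ[O] T)
  (hκ : ∀ s, phiH O (⊤ : Subgroup (ZMod N)ˣ) hNS s = 0 → κ s = 0) (hκe : κ e = 1)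

include hκ hκe in
theorem prD_eq_zero {s : TD O S N} (hs : psiY (O := O) ⊤ hNS e s = 0) : κ (prD O S N s) = 0 := by
  have h1 : phiH O (⊤ : Subgroup (ZMod N)ˣ) hNS (prD O S N s * e) = 0 := by
    have h2 : prD O S N s * e = prD O S N (s * incD O S N e) := by rw [map_mul, prD_incD]
    rw [h2, phiH_prD, map_mul]
    refine LinearMap.ext fun x => ?_
    have h3 := LinearMap.congr_fun hs (toPart (phiD O ⊤ hNS) (incD O S N e) x)
    exact congrArg Subtype.val h3
  have h4 := hκ _ h1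
  rwa [map_mul, hκe, mul_one] at h4

include hκ hκe in
theorem exists_lam (hp2 : p ≠ 2) (hpS : p ∈ S) : ∃ lam : h.TT →ₐ[O] T, ∀ (l : ℕ) (hl : l.Prime)
    (hlS : l ∉ S) (A : ValuationSubring (AlgebraicClosure ℚ)), A.LiesOverPrime l →
      ∀ τ : GQ, A.IsFrobeniusAt τ l → lam (h.tt τ) = κ (MvPolynomial.X ⟨l, hl, hlS⟩) := by
  let f : MvPolynomial GQ O →ₐ[O] T :=
    (κ.comp (prD O S N)).comp (MvPolynomial.aeval (trS h.rel))
  let lam : h.TT →ₐ[O] T := Ideal.Quotient.liftₐ (RingHom.ker (psiQ h.rel)) f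
    (fun s hs => prD_eq_zero (κ := κ) hκ hκe (s := MvPolynomial.aeval (trS h.rel) s) hs)
  refine ⟨lam, fun l hl hlS A hA τ hτ => ?_⟩
  have h1 : lam (h.tt τ) = κ (prD O S N (trS h.rel τ)) := by
    change f (MvPolynomial.X τ) = _
    rw [AlgHom.comp_apply, MvPolynomial.aeval_X]
    rfl
  have hlp : l ≠ p := by rintro rfl; exact hlS hpS
  have hlN : ¬ l ∣ N := fun h => hlS (hNS l hl h)
  have h2 : psiY (O := O) ⊤ hNS e (trS h.rel τ - MvPolynomial.X (Sum.inl ⟨l, hl, hlS⟩)) = 0 := by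
    rw [map_sub, sub_eq_zero, trS_spec]
    have h3 := rhoT_frob (O := O) (H := (⊤ : Subgroup (ZMod N)ˣ)) hpO ι
      (odd_card hp2 isPGroupDG) hl hlN hlp hA hτ
    rw [Subsingleton.elim (twd N ⊤ τ) 1, map_one, one_mul] at h3
    refine LinearMap.ext fun y => Subtype.ext ?_
    have h4 := LinearMap.congr_fun h3 (y : XH O N ⊤)
    rw [actPart_coe, phiD_inl, cycO_frob hpO hl hlp hA hτ]
    exact h4
  have h5 := prD_eq_zero (κ := κ) hκ hκe h2
  rw [map_sub, map_sub, sub_eq_zero] at h5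
  rw [h1, h5, prD, MvPolynomial.aeval_X]
  rfl

end

end Fermat.Agent.FlT
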