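import Fermat.Agent.FlT.Irr
import Fermat.Agent.FlT.Faith
import Fermat.Agent.FlT.Ring
import Fermat.Agent.FlT.Lat
import Fermat.Agent.GalRep.LocalCond
import Fermat.Agent.RedMod.Bar
import Fermat.Agent.LowLevel.CuspZero
import Fermat.Prelude.Def_GaloisRep_Flat
import Fermat.Prelude.Def_CuspForm_HeckeGaloisRepDatum

/-!
# Flatness at `p` of Hecke–Galois data
-/

set_option autoImplicit false
set_option linter.unusedSectionVars false
set_option linter.style.haveILetI false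

open scoped TensorProduct
open IsLocalRing Polynomial
open Fermat.Agent.KumG Fermat.Agent.GalRep Fermat.Agent.Places Fermat.Agent.Cheb Fermat.Agent.TW
open Fermat.Agent.FFG Fermat.Agent.Flat
open Fermat.Agent.DefRing (toMatRep toMatRep_apply toMatRep_cont)

namespace Fermat.Agent.FlT

noncomputable section

section level

variable {A : Type} [CommRing A] [IsLocalRing A]

theorem levelAction_mk (ρ : GaloisRepAdic A) (I : Ideal A) (σ : GQ) (v : ρ.V) :
    ρ.levelAction I σ (Submodule.Quotient.mk v) = Submodule.Quotient.mk (ρ.ρ σ v) := rfl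

/-- the reduction of an adic representation is a finite Galois module -/
theorem galMod_level [IsNoetherianRing A] (ρ : GaloisRepAdic A) (I : Ideal A) [Finite (A ⧸ I)] :
    GalMod (ρ.V ⧸ (I • (⊤ : Submodule A ρ.V))) (fun σ v => ρ.levelAction I σ v) where
  one P := by
    obtain ⟨v, rfl⟩ := Submodule.Quotient.mk_surjective _ P
    rw [levelAction_mk, map_one, Module.End.one_apply]
  mul σ τ P := by
    obtain ⟨v, rfl⟩ := Submodule.Quotient.mk_surjective _ P
    rw [levelAction_mk, map_mul, Module.End.mul_apply]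
    rfl
  add σ P Q := map_add _ _ _
  lev := by
    obtain ⟨n, hn⟩ := exists_maximalIdeal_pow_le_of_isArtinianRing_quotient I
    obtain ⟨L, hL, h⟩ := ρ.isAdicContinuous n
    refine ⟨L, hL, fun σ hσ P => ?_⟩
    obtain ⟨v, rfl⟩ := Submodule.Quotient.mk_surjective _ P
    rw [levelAction_mk, Submodule.Quotient.eq]
    exact Submodule.smul_mono_left hn (h σ hσ v)

theorem finite_level (ρ : GaloisRepAdic A) (I : Ideal A) [Finite (A ⧸ I)] :
    Finite (ρ.V ⧸ (I • (⊤ : Submodule A ρ.V))) := by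
  haveI : Module.Finite (A ⧸ I) (ρ.V ⧸ (I • (⊤ : Submodule A ρ.V))) :=
    Module.Finite.of_restrictScalars_finite A _ _
  exact Module.finite_of_finite (A ⧸ I)

theorem exists_pow_mem (I : Ideal A) [IsNoetherianRing A] [Finite (A ⧸ I)] {p : ℕ}
    (hp : (p : A) ∈ maximalIdeal A) : ∃ n : ℕ, ((p ^ n : ℕ) : A) ∈ I := by
  obtain ⟨n, hn⟩ := exists_maximalIdeal_pow_le_of_isArtinianRing_quotient I
  exact ⟨n, hn (by push_cast; exact Ideal.pow_mem_pow hp n)⟩

end level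

theorem finite_quot {O : Type} [CommRing O] [IsDomain O] [IsDiscreteValuationRing O]
    [Finite (ResidueField O)] [CharZero O] {n : ℕ} (hn : n ≠ 0) :
    Finite (O ⧸ Ideal.span {(n : O)}) := by
  rw [finite_quotient_iff]
  obtain ⟨ϖ, hϖ⟩ := IsDiscreteValuationRing.exists_irreducible O
  have h0 : Ideal.span {(n : O)} ≠ ⊥ := by
    rw [Ne, Ideal.span_singleton_eq_bot]
    exact_mod_cast hn
  obtain ⟨k, hk⟩ := IsDiscreteValuationRing.ideal_eq_span_pow_irreducible h0 hϖ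
  refine ⟨k, ?_⟩
  rw [hk, hϖ.maximalIdeal_eq, Ideal.span_singleton_pow]

theorem isQRep_of_charpoly {A : Type} [CommRing A] [IsLocalRing A] (ρ : GaloisRepAdic A)
    {t : GQ → A} {D : GQ →* A}
    (h : ∀ g, LinearMap.charpoly (ρ.ρ g) = X ^ 2 - C (t g) * X + C (D g)) :
    IsQRep ρ.ρ D t where
  rel g := by
    have h1 := LinearMap.aeval_self_charpoly (ρ.ρ g)
    rw [h] at h1
    simp only [map_add, map_sub, map_mul, map_pow, aeval_X, aeval_C] at h1
    have h2 : ρ.ρ g * ρ.ρ g⁻¹ = 1 := by rw [← map_mul, mul_inv_cancel, map_one]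
    have h3 := congrArg (fun f => f * ρ.ρ g⁻¹) h1
    simp only [add_mul, sub_mul, zero_mul, sq, mul_assoc, h2, mul_one] at h3
    rw [Algebra.algebraMap_eq_smul_one, Algebra.algebraMap_eq_smul_one, smul_mul_assoc,
      one_mul] at h3
    rw [← sub_eq_zero, ← h3]
    abel
  inj a ha := by
    let b : Module.Basis (Fin 2) A ρ.V := Module.finBasisOfFinrankEq A ρ.V ρ.finrank_eq
    have h1 := LinearMap.congr_fun ha (b 0)
    have h2 := congrArg (fun v => b.repr v 0) h1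
    simpa using h2

section main

variable {p : ℕ} {N : ℕ} [NeZero N] {S : Finset ℕ}
  {𝒪 : Type} [CommRing 𝒪] [IsDomain 𝒪] [IsDiscreteValuationRing 𝒪]
  [IsAdicComplete (IsLocalRing.maximalIdeal 𝒪) 𝒪]
  {θ : CuspForm.heckeAlgebra N 2 (↑S : Set ℕ) →+* IsLocalRing.ResidueField 𝒪}
  {T : Type} [CommRing T] [IsLocalRing T] [IsNoetherianRing T]
  [IsAdicComplete (IsLocalRing.maximalIdeal T) T] [Algebra 𝒪 T] [IsLocalHom (algebraMap 𝒪 T)]
  [Module.Finite 𝒪 T] [Module.Free 𝒪 T]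

theorem three_le_of_theta (θ : CuspForm.heckeAlgebra N 2 (↑S : Set ℕ) →+*
    IsLocalRing.ResidueField 𝒪) : 3 ≤ N := by
  by_contra hN
  have hN2 : N ≤ 2 := by omega
  have h1 : (1 : CuspForm.heckeAlgebra N 2 (↑S : Set ℕ)) = 0 := by
    apply Subtype.ext
    refine LinearMap.ext fun f => ?_
    rw [Fermat.Agent.LowLevel.S2_Gamma0_eq_zero_of_le_two N hN2 f, map_zero, map_zero]
  have h2 := congrArg θ h1
  rw [map_one, map_zero] at h2
  exact one_ne_zero h2

/-- the residue fields agree -/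
theorem bij_residue (H : CuspForm.HeckeGaloisRepDatum N (↑S : Set ℕ) 𝒪 θ T) :
    Function.Bijective (ResidueField.map (algebraMap 𝒪 T)) := by
  refine ⟨(ResidueField.map (algebraMap 𝒪 T)).injective, fun x => ?_⟩
  obtain ⟨x, rfl⟩ := IsLocalRing.residue_surjective x
  obtain ⟨y, hy⟩ := H.residue_surjective (residue T x)
  exact ⟨residue 𝒪 y, hy⟩

/-- the residue fields agree -/
def resE (H : CuspForm.HeckeGaloisRepDatum N (↑S : Set ℕ) 𝒪 θ T) :
    ResidueField 𝒪 ≃+* ResidueField T := RingEquiv.ofBijective _ (bij_residue H)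

theorem resE_residue (H : CuspForm.HeckeGaloisRepDatum N (↑S : Set ℕ) 𝒪 θ T) (x : 𝒪) :
    resE H (residue 𝒪 x) = residue T (algebraMap 𝒪 T x) := rfl

variable [Finite (ResidueField 𝒪)] [CharZero 𝒪]

set_option maxHeartbeats 1000000 in
/-- **flatness at `p`** -/
theorem isFlatAt (hp : p.Prime) (hp2 : p ≠ 2) (hp𝒪 : (p : 𝒪) ∈ IsLocalRing.maximalIdeal 𝒪)
    (hpN : ¬ p ∣ N) (hpS : p ∈ S) (hNS : ∀ q : ℕ, q.Prime → q ∣ N → q ∈ S)
    (H : CuspForm.HeckeGaloisRepDatum N (↑S : Set ℕ) 𝒪 θ T) : H.ρ.IsFlatAt p := by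
  classical
  haveI : Fact p.Prime := ⟨hp⟩
  haveI : Finite (ResidueField T) := Finite.of_surjective _ (bij_residue H).2
  refine ⟨inferInstance, fun I hI => ?_⟩
  have hN3 := three_le_of_theta θ
  obtain ⟨ι⟩ := RedMod.exists_ιC
  obtain ⟨A, hA⟩ := Places.exists_liesOverPrime (AlgebraicClosure ℚ) hp
  have hNS' : ∀ l, l.Prime → l ∣ N → l ∈ (↑S : Set ℕ) := hNS
  have hpS' : p ∈ (↑S : Set ℕ) := hpS
  have hpT : (p : T) ∈ maximalIdeal T := by
    rw [← map_natCast (algebraMap 𝒪 T), IsLocalRing.mem_maximalIdeal]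
    rw [IsLocalRing.mem_maximalIdeal] at hp𝒪
    exact fun h => hp𝒪 ((isUnit_map_iff (algebraMap 𝒪 T) (p : 𝒪)).mp h)
  have h2u : IsUnit (2 : 𝒪) := by
    by_contra h2
    obtain ⟨k, hk⟩ := hp.odd_of_ne_two hp2
    have h3 : (1 : 𝒪) ∈ maximalIdeal 𝒪 := by
      have h4 : (1 : 𝒪) = (p : 𝒪) - 2 * k := by rw [hk]; push_cast; ring
      rw [h4]
      exact Ideal.sub_mem _ hp𝒪 (Ideal.mul_mem_right _ _ h2)
    exact (Ideal.ne_top_iff_one _).1 (Ideal.IsMaximal.ne_top inferInstance) h3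
  letI : Invertible (2 : 𝒪) := h2u.invertible
  have h2T : IsUnit (2 : T) := by
    have := h2u.map (algebraMap 𝒪 T)
    rwa [map_ofNat] at this
  letI : Invertible (2 : T) := h2T.invertible
  let θ' : TS 𝒪 (↑S : Set ℕ) →ₐ[𝒪] ResidueField 𝒪 := MvPolynomial.aeval
    (fun i => θ (CuspForm.heckeAlgebra.T i.2.1 (i.not_dvd hNS') i.2.2))
  let κ : TS 𝒪 (↑S : Set ℕ) →ₐ[𝒪] T := MvPolynomial.aeval
    (fun i => H.π (CuspForm.heckeAlgebra.T i.2.1 (i.not_dvd hNS') i.2.2))
  have hκθ : ∀ s, residue T (κ s) = resE H (θ' s) := by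
    intro s
    induction s using MvPolynomial.induction_on with
    | C r =>
      rw [MvPolynomial.aeval_C, MvPolynomial.aeval_C]
      exact (resE_residue H r).symm
    | add s s' h h' => rw [map_add, map_add, map_add, map_add, h, h']
    | mul_X s i h =>
      rw [map_mul, map_mul, map_mul, map_mul, h, MvPolynomial.aeval_X, MvPolynomial.aeval_X,
        H.residue_π]
      rfl
  obtain ⟨e, he1, he2, he3, he4⟩ := exists_idem (ι := Unit) (fun _ => XH 𝒪 N ⊤)
    (fun _ => phiH 𝒪 ⊤ hNS') θ'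
  have heloc : IsLoc (phiH 𝒪 ⊤ hNS') θ' e :=
    ⟨he2 (), fun s hs => (he3 s hs).imp fun s' h => h (), fun s hs => (he4 s hs).imp fun n h => h ()⟩
  have hκ : ∀ s, phiH 𝒪 (⊤ : Subgroup (ZMod N)ˣ) hNS' s = 0 → κ s = 0 := fun s hs =>
    aeval_eq_zero hNS' H.π hs
  have hκe : κ e = 1 := by
    have h1 := hκ (e * e - e) (by rw [map_sub, map_mul, he2 (), sub_self])
    rw [map_sub, map_mul, sub_eq_zero] at h1
    have h2 : IsUnit (κ e) := by
      rw [← residue_ne_zero_iff_isUnit, hκθ, he1, map_one]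
      exact one_ne_zero
    exact h2.mul_left_cancel (by rw [h1, mul_one])
  haveI : Nontrivial (YH (⊤ : Subgroup (ZMod N)ˣ) hNS' e) := by
    by_contra hne
    rw [not_nontrivial_iff_subsingleton] at hne
    have h1 : phiH 𝒪 (⊤ : Subgroup (ZMod N)ˣ) hNS' e = 0 := by
      rw [← phiD_incD]
      refine LinearMap.ext fun x => ?_
      have h2 := Subsingleton.elim (toPart (phiD 𝒪 ⊤ hNS') (incD 𝒪 (↑S : Set ℕ) N e) x) 0
      exact congrArg Subtype.val h2
    rw [hκ e h1] at hκe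
    exact zero_ne_one hκe
  let b : Module.Basis (Fin 2) T H.ρ.V := Module.finBasisOfFinrankEq T H.ρ.V H.ρ.finrank_eq
  let fr : T →+* ResidueField 𝒪 := ((resE H).symm : ResidueField T →+* ResidueField 𝒪).comp (residue T)
  let t : GQ → ResidueField 𝒪 := fun g => fr (toMatRep H.ρ b g).trace
  have ht : IsPseudoRep t (fun g => fr (toMatRep H.ρ b g).det) :=
    (isPseudoRep_of_matrix (toMatRep H.ρ b)).comp fr
  have htc : IsLocConst t := by
    obtain ⟨L, hL, h⟩ := isLocConst_trace _ (toMatRep_cont H.ρ b) 1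
    refine ⟨L, hL, fun σ hσ g => ?_⟩
    have h1 := h σ hσ g
    rw [Ideal.Quotient.eq, pow_one] at h1
    change (resE H).symm (residue T _) = (resE H).symm (residue T _)
    congr 1
    rw [← sub_eq_zero, ← map_sub, residue_eq_zero_iff]
    exact h1
  have hfr : ∀ (l : ℕ) (hl : l.Prime) (hlS : l ∉ (↑S : Set ℕ))
      (A : ValuationSubring (AlgebraicClosure ℚ)), A.LiesOverPrime l → ∀ τ : GQ,
      A.IsFrobeniusAt τ l → (toMatRep H.ρ b τ).trace = κ (MvPolynomial.X ⟨l, hl, hlS⟩) ∧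
        (toMatRep H.ρ b τ).det = l := by
    intro l hl hlS A hA τ hτ
    have hlN : ¬ l ∣ N := fun h => hlS (hNS l hl h)
    have h1 := trace_det_of_charpoly (H.ρ.ρ τ) b (H.charpoly_frob l hl hlN hlS A hA τ hτ)
    rw [toMatRep_apply, MvPolynomial.aeval_X]
    exact h1
  have hfrob : ∀ l : IS (↑S : Set ℕ), ∀ A : ValuationSubring (AlgebraicClosure ℚ),
      A.LiesOverPrime (l : ℕ) → ∀ τ : GQ, A.IsFrobeniusAt τ (l : ℕ) →
        t τ = θ' (MvPolynomial.X l) ∧ fr (toMatRep H.ρ b τ).det = (l : ℕ) := by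
    intro l A hA τ hτ
    obtain ⟨h1, h2⟩ := hfr l.1 l.2.1 l.2.2 A hA τ hτ
    refine ⟨?_, ?_⟩
    · change (resE H).symm (residue T _) = _
      rw [h1, hκθ, RingEquiv.symm_apply_apply]
    · rw [h2, map_natCast]
  have hg := hg_YH (O := 𝒪) hp𝒪 ι (H := (⊤ : Subgroup (ZMod N)ˣ)) S.finite_toSet hpS' hp2
    isPGroupDG heloc ht htc hfrob
  haveI : Module.Free 𝒪 (YH (⊤ : Subgroup (ZMod N)ˣ) hNS' e) :=
    free_part (isLoc_phiD hp𝒪 hp2 isPGroupDG heloc).idem
  obtain ⟨lam, hlam⟩ := exists_lam ι hg κ hκ hκe hp2 hpS'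
  -- the pseudo-representation of the trace ring, pushed to `T`
  let Dl : GQ →* T := (algebraMap 𝒪 T).toMonoidHom.comp (cycO hp𝒪)
  let bf : ℕ → T := fun l => if h : l.Prime ∧ l ∉ (↑S : Set ℕ) then
    κ (MvPolynomial.X ⟨l, h.1, h.2⟩) else 0
  have hbf : ∀ (l : ℕ) (hl : l.Prime) (hlS : l ∉ (↑S : Set ℕ)),
      bf l = κ (MvPolynomial.X ⟨l, hl, hlS⟩) := fun l hl hlS => dif_pos ⟨hl, hlS⟩
  have hgood : IsGoodPseudoRep (maximalIdeal T) bf (↑S : Set ℕ) p ∅ (fun g => lam (hg.tt g)) Dl := by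
    refine ⟨?_, ?_, ?_, ?_, ?_, ?_⟩
    · have h1 := hg.isPseudoRep.comp (lam : hg.TT →+* T)
      have h2 : (fun g => (lam : hg.TT →+* T) (hg.DD g)) = fun g => Dl g := by
        funext g
        exact lam.commutes _
      rw [h2] at h1
      exact h1
    · intro n
      obtain ⟨L, hL, h⟩ := hg.tt_cont n
      refine ⟨L, hL, fun σ hσ g => ?_⟩
      rw [Ideal.Quotient.eq, ← map_sub]
      obtain ⟨z, hz⟩ := Ideal.mem_span_singleton.1 (h σ hσ g)
      rw [hz, map_mul, map_pow, map_natCast]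
      exact Ideal.mul_mem_right _ _ (Ideal.pow_mem_pow hpT n)
    · intro n g
      obtain ⟨z, hz⟩ := cycO_spec (O := 𝒪) hp𝒪 g n
      have h1 : Dl g = (((cyc (p ^ n) g).val : ℕ) : T) + (p : T) ^ n * algebraMap 𝒪 T z := by
        change algebraMap 𝒪 T (cycO hp𝒪 g) = _
        rw [hz, map_add, map_mul, map_natCast, map_pow, map_natCast]
      rw [h1, map_add, map_natCast, Ideal.Quotient.eq_zero_iff_mem.2
        (Ideal.mul_mem_right _ _ (Ideal.pow_mem_pow hpT n)), add_zero]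
    · intro l hl hlS B hB τ hτ
      have hlp : l ≠ p := by rintro rfl; exact hlS hpS'
      refine ⟨?_, ?_⟩
      · rw [hbf l hl hlS]
        exact hlam l hl hlS B hB τ hτ
      · change algebraMap 𝒪 T (cycO hp𝒪 τ) = _
        rw [cycO_frob hp𝒪 hl hlp hB hτ, map_natCast]
    · intro σ hσ
      exact absurd hσ (Set.notMem_empty σ)
    · change algebraMap 𝒪 T (cycO hp𝒪 _) = _
      rw [cycO_conj, map_neg, map_one]
  have hchar := charpoly_eq_of_frobenius hgood S.finite_toSet H.ρ (fun l hl hlS B hB τ hτ => by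
    rw [hbf l hl hlS, MvPolynomial.aeval_X]
    exact H.charpoly_frob l hl (fun h => hlS (hNS l hl h)) hlS B hB τ hτ)
  have hV : IsQRep H.ρ.ρ Dl (fun g => lam (hg.tt g)) := isQRep_of_charpoly H.ρ hchar
  have hDc : Dl complexConjugation = -1 := hgood.complexConj
  obtain ⟨g₀, k₀, hgk⟩ := exists_irr H.ρ H.residual_absIrr b (c := complexConjugation)
    (by
      intro h2
      have h3 : residue T (2 : T) = 0 := by rw [map_ofNat]; exact h2
      rw [residue_eq_zero_iff] at h3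
      exact h3 h2T)
    (by
      have h1 := trace_det_of_charpoly (H.ρ.ρ complexConjugation) b (hchar complexConjugation)
      rw [toMatRep_apply, h1.2, hDc])
  have hirr : HG.IrrAt t g₀ k₀ := by
    change fr _ + fr _ - (fr _ + fr _) ≠ 0
    rw [← map_add, ← map_add, ← map_sub]
    intro h0
    exact hgk ((map_eq_zero_iff _ (resE H).symm.injective).1 h0)
  obtain ⟨J, B, iJ, iB1, iB2, Φ, Ψ, ac, hΨn, hΦ, hΨ, hΦac, hΨac⟩ := exists_rel hg hirr lam hV hDc
    (fun _ => rfl)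
  obtain ⟨n, hn⟩ := exists_pow_mem I hpT
  have hcomm : ∀ (g : GQ) (x : XH 𝒪 N (⊤ : Subgroup (ZMod N)ˣ)),
      toPart (phiD 𝒪 ⊤ hNS') (incD 𝒪 (↑S : Set ℕ) N e) (rhoO ι hp𝒪 g x) =
        rhoY hp𝒪 ι ⊤ hNS' e g (toPart (phiD 𝒪 ⊤ hNS') (incD 𝒪 (↑S : Set ℕ) N e) x) := by
    intro g x
    apply Subtype.ext
    have h1 := rhoN_phiD (O := 𝒪) (H := (⊤ : Subgroup (ZMod N)ˣ)) hp𝒪 hNS' ι g
      (incD 𝒪 (↑S : Set ℕ) N e) x
    have h2 : rhoT (O := 𝒪) hp𝒪 ι N (⊤ : Subgroup (ZMod N)ˣ) g = rhoN hp𝒪 ι N ⊤ g := by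
      rw [rhoT_apply, Subsingleton.elim (twd N ⊤ g) 1, map_one, one_mul]
    refine h1.symm.trans ?_
    change _ = rhoT (O := 𝒪) hp𝒪 ι N (⊤ : Subgroup (ZMod N)ˣ) g _
    rw [h2]
    rfl
  obtain ⟨𝓗, h𝓗⟩ := exists_flat (O := 𝒪) hp𝒪 ι
    (toPart (phiD 𝒪 ⊤ hNS') (incD 𝒪 (↑S : Set ℕ) N e)) (LinearMap.surjective_rangeRestrict _)
    (fun g => rhoY hp𝒪 ι ⊤ hNS' e g) hcomm hA
    (fun m _ => exists_isHopfFn_XL (m := m) hA hpN hN3 (Subgroup.mem_top _) ι)
    (fun m _ => inferInstance) (fun m => finite_quot (pow_ne_zero m hp.ne_zero))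
    Φ hΦ ac hΦac
    (((I • (⊤ : Submodule T H.ρ.V)).mkQ.toAddMonoidHom).comp Ψ)
    ((Submodule.mkQ_surjective _).comp hΨ) (n := n)
    (fun x => by
      change Submodule.Quotient.mk (Ψ _) = 0
      rw [hΨn, Submodule.Quotient.mk_eq_zero, ← Nat.cast_smul_eq_nsmul T]
      exact Submodule.smul_mem_smul hn trivial)
    (fun σ v => H.ρ.levelAction I σ v)
    (fun g x => by
      change Submodule.Quotient.mk (Ψ _) = H.ρ.levelAction I g (Submodule.Quotient.mk (Ψ x))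
      rw [hΨac, levelAction_mk])
  haveI := finite_level H.ρ I
  exact exists_hopf_Z (galMod_level H.ρ I) hA h𝓗

end main

end

end Fermat.Agent.FlT
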