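import Fermat.Agent.TW.YH
import Fermat.Agent.FlT.Corr

/-!
# Quotients of representations with values in the trace ring are subquotients of the lattice
-/

set_option autoImplicit false
set_option linter.unusedSectionVars false
set_option linter.style.haveILetI false

open IsLocalRing
open Fermat.Agent.GalRep Fermat.Agent.Places Fermat.Agent.Cheb Fermat.Agent.TW

namespace Fermat.Agent.FlT

noncomputable section

section RR

variable {T T' : Type} [CommRing T] [CommRing T'] {G : Type*} [Group G] [Invertible (2 : T)]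
  [Invertible (2 : T')] (f : T →+* T')

theorem map_invOf_two : f (⅟(2 : T)) = ⅟(2 : T') := by
  have h1 : (2 : T') * f (⅟(2 : T)) = 1 := by
    rw [← map_ofNat f 2, ← map_mul, mul_invOf_self, map_one]
  calc f (⅟(2 : T)) = ⅟(2 : T') * ((2 : T') * f (⅟(2 : T))) := by
        rw [← mul_assoc, invOf_mul_self, one_mul]
    _ = ⅟(2 : T') := by rw [h1, mul_one]

theorem map_aa (t : G → T) (c g : G) : f (aa t c g) = aa (fun g => f (t g)) c g := by
  rw [aa, aa, map_mul, map_add, map_invOf_two]

theorem map_ee (t : G → T) (c g : G) : f (ee t c g) = ee (fun g => f (t g)) c g := by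
  rw [ee, ee, map_mul, map_sub, map_invOf_two]

theorem map_bc (t : G → T) (c g k : G) : f (bc t c g k) = bc (fun g => f (t g)) c g k := by
  rw [bc, bc, map_mul, map_sub, map_invOf_two, map_aa, map_aa]

theorem map_RR (t : G → T) (c g₀ k₀ : G) (u : Tˣ) (g : G) (i j : Fin 2) :
    f (RR t c g₀ k₀ u g i j) = RR (fun g => f (t g)) c g₀ k₀ (Units.map (f : T →* T') u) g i j := by
  fin_cases i <;> fin_cases j
  · exact map_aa f t c g
  · change f ((↑u⁻¹ : T) * bc t c g k₀) = _
    rw [map_mul, map_bc]
    rfl
  · exact map_bc f t c g₀ g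
  · exact map_ee f t c g

end RR

section HG

variable {O T Y : Type} [CommRing O] [IsLocalRing O] [IsNoetherianRing O]
  [IsAdicComplete (maximalIdeal O) O] [CommRing T] [Algebra O T] [AddCommGroup Y] [Module O Y]
  [Module.Finite O Y] [Module.Free O Y] [Nontrivial Y] {p : ℕ} [hp : Fact p.Prime]
  {hpO : (p : O) ∈ maximalIdeal O}
  {S : Set ℕ} {t : GQ → ResidueField O} {ψ : T →ₐ[O] Module.End O Y}
  {θ : T →ₐ[O] ResidueField O} {ρ : GQ →* Module.End O Y} (h : HG hpO S t ψ θ ρ)
  [Invertible (2 : O)] {g₀ k₀ : GQ} (hgk : HG.IrrAt t g₀ k₀)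

variable {T' : Type} [CommRing T'] [Algebra O T'] [Module.Finite O T'] [Invertible (2 : T')]
  (lam : h.TT →ₐ[O] T') {V : Type} [AddCommGroup V] [Module T' V] [Module.Finite T' V]
  {ρV : GQ →* Module.End T' V} {D : GQ →* T'} {t' : GQ → T'}
  (hV : IsQRep ρV D t')
  (hDc : D complexConjugation = -1) (htt : ∀ g, lam (h.tt g) = t' g)

include h hgk hV hDc htt in
/-- **the correspondence** between a representation with traces in the trace ring and the
lattice -/
theorem exists_rel : ∃ (J B : Type) (_ : Fintype J) (_ : AddCommGroup B) (_ : Module O B)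
    (Φ : B →ₗ[O] (J → Y)) (Ψ : B →+ V) (ac : GQ → B → B) (_ : ∀ (a : ℕ) (x : B), Ψ ((a : O) • x) = a • Ψ x),
    Function.Injective Φ ∧ Function.Surjective Ψ ∧ (∀ g x j, Φ (ac g x) j = ρ g (Φ x j)) ∧
      ∀ g x, Ψ (ac g x) = ρV g (Ψ x) := by
  classical
  set u := h.uu hgk with hu
  let u' : T'ˣ := Units.map (lam : h.TT →* T') u
  have hu' : (u' : T') = bc t' complexConjugation g₀ k₀ := by
    change lam (u : h.TT) = _
    rw [hu, h.uu_eq]
    have := map_bc (lam : h.TT →+* T') h.tt complexConjugation g₀ k₀
    refine this.trans ?_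
    congr 1
    funext g
    exact htt g
  obtain ⟨E', -, hE'⟩ := exists_split hV complexConjugation_mul_self hDc hu'
  haveI : Module.Finite T' (MM ρV complexConjugation) :=
    Module.Finite.of_surjective ((LinearMap.fst T' _ _) ∘ₗ E'.toLinearMap)
      ((LinearMap.fst_surjective (R := T')).comp E'.surjective)
  letI : Module O (MM ρV complexConjugation) := Module.compHom _ (algebraMap O T')
  haveI : IsScalarTower O T' (MM ρV complexConjugation) :=
    ⟨fun a b m => by
      rw [Algebra.smul_def, mul_smul]
      rfl⟩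
  haveI : Module.Finite O (MM ρV complexConjugation) := Module.Finite.trans T' _
  haveI := h.finite_MQ hgk
  obtain ⟨r, v, hv⟩ := Module.Finite.exists_fin (R := O) (M := MM ρV complexConjugation)
  obtain ⟨a, w, hw⟩ := Module.Finite.exists_fin (R := O) (M := h.MQ)
  have hRR : ∀ g i j, lam (h.R hgk g i j) =
      RR t' complexConjugation g₀ k₀ u' g i j := by
    intro g i j
    rw [h.R_apply]
    have := map_RR (lam : h.TT →+* T') h.tt complexConjugation g₀ k₀ u g i j
    refine this.trans ?_
    congr 1
    congr 1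
    funext g
    exact htt g
  let Φ : (Fin r → h.TT × h.TT) →ₗ[O] (Fin r × Fin a → Y) :=
    { toFun := fun x ij => (h.EO hgk).symm ((x ij.1).1 • w ij.2, (x ij.1).2 • w ij.2)
      map_add' := fun x y => by
        funext ij
        refine Eq.trans ?_ (map_add (h.EO hgk).symm _ _)
        congr 1
        exact Prod.ext (add_smul _ _ _) (add_smul _ _ _)
      map_smul' := fun c x => by
        funext ij
        refine Eq.trans ?_ (map_smul (h.EO hgk).symm c _)
        congr 1
        exact Prod.ext (smul_assoc _ _ _) (smul_assoc _ _ _) }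
  have hEO : ∀ y, h.EO hgk y = h.EE hgk y := fun y => rfl
  have hΦ : ∀ x ij, h.EE hgk (Φ x ij) = ((x ij.1).1 • w ij.2, (x ij.1).2 • w ij.2) := by
    intro x ij
    rw [← hEO]
    exact (h.EO hgk).apply_symm_apply _
  let Ψ : (Fin r → h.TT × h.TT) →+ V :=
    { toFun := fun x => E'.symm (∑ i, lam (x i).1 • v i, ∑ i, lam (x i).2 • v i)
      map_zero' := by
        have : ((∑ i, lam ((0 : Fin r → h.TT × h.TT) i).1 • v i,
            ∑ i, lam ((0 : Fin r → h.TT × h.TT) i).2 • v i) :
            MM ρV complexConjugation × MM ρV complexConjugation) = 0 := by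
          refine Prod.ext ?_ ?_
          · change ∑ i, lam (0 : h.TT) • v i = 0
            exact Finset.sum_eq_zero fun i _ => by rw [map_zero, zero_smul]
          · change ∑ i, lam (0 : h.TT) • v i = 0
            exact Finset.sum_eq_zero fun i _ => by rw [map_zero, zero_smul]
        rw [this, map_zero]
      map_add' := fun x y => by
        rw [← map_add]
        congr 1
        refine Prod.ext ?_ ?_
        · simp only [Pi.add_apply, Prod.fst_add, map_add, add_smul, Finset.sum_add_distrib]
        · simp only [Pi.add_apply, Prod.snd_add, map_add, add_smul, Finset.sum_add_distrib] }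
  have hΨ : ∀ x, E' (Ψ x) = (∑ i, lam (x i).1 • v i, ∑ i, lam (x i).2 • v i) := fun x =>
    E'.apply_symm_apply _
  refine ⟨Fin r × Fin a, Fin r → h.TT × h.TT, inferInstance, inferInstance, inferInstance, Φ, Ψ,
    fun g x i => mact (h.R hgk g) (x i), ?_, ?_, ?_, ?_, ?_⟩
  · intro n x
    apply E'.injective
    rw [hΨ, map_nsmul, hΨ]
    refine Prod.ext ?_ ?_
    · change ∑ i, lam ((n : O) • (x i).1) • v i = n • ∑ i, lam (x i).1 • v i
      rw [Finset.smul_sum]
      refine Finset.sum_congr rfl fun i _ => ?_
      rw [Nat.cast_smul_eq_nsmul, map_nsmul, smul_assoc]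
    · change ∑ i, lam ((n : O) • (x i).2) • v i = n • ∑ i, lam (x i).2 • v i
      rw [Finset.smul_sum]
      refine Finset.sum_congr rfl fun i _ => ?_
      rw [Nat.cast_smul_eq_nsmul, map_nsmul, smul_assoc]
  · rw [injective_iff_map_eq_zero]
    intro x hx
    have key : ∀ i, ∀ m : h.MQ, (x i).1 • m = 0 ∧ (x i).2 • m = 0 := by
      intro i m
      have hm : m ∈ Submodule.span O (Set.range w) := by rw [hw]; trivial
      induction hm using Submodule.span_induction with
      | mem m hm =>
        obtain ⟨j, rfl⟩ := hm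
        have h1 := hΦ x (i, j)
        rw [hx, Pi.zero_apply, map_zero] at h1
        exact ⟨(congrArg Prod.fst h1).symm, (congrArg Prod.snd h1).symm⟩
      | zero => exact ⟨smul_zero _, smul_zero _⟩
      | add m m' _ _ h1 h2 =>
        exact ⟨by rw [smul_add, h1.1, h2.1, add_zero], by rw [smul_add, h1.2, h2.2, add_zero]⟩
      | smul c m _ h1 =>
        exact ⟨by rw [← algebraMap_smul h.TT c m, smul_comm, h1.1, smul_zero],
          by rw [← algebraMap_smul h.TT c m, smul_comm, h1.2, smul_zero]⟩
    funext i
    exact Prod.ext (h.faithful_MQ hgk fun m => (key i m).1)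
      (h.faithful_MQ hgk fun m => (key i m).2)
  · intro y
    have hs : ∀ m : MM ρV complexConjugation, ∃ c : Fin r → O, m = ∑ i, c i • v i := by
      intro m
      have hm : m ∈ Submodule.span O (Set.range v) := by rw [hv]; trivial
      obtain ⟨c, hc⟩ := (Submodule.mem_span_range_iff_exists_fun O).1 hm
      exact ⟨c, hc.symm⟩
    obtain ⟨c, hc⟩ := hs (E' y).1
    obtain ⟨d, hd⟩ := hs (E' y).2
    refine ⟨fun i => (algebraMap O h.TT (c i), algebraMap O h.TT (d i)), E'.injective ?_⟩
    rw [hΨ]
    refine Prod.ext ?_ ?_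
    · rw [hc]
      change ∑ i, lam (algebraMap O h.TT (c i)) • v i = ∑ i, c i • v i
      refine Finset.sum_congr rfl fun i _ => ?_
      rw [AlgHom.commutes, algebraMap_smul]
    · rw [hd]
      change ∑ i, lam (algebraMap O h.TT (d i)) • v i = ∑ i, d i • v i
      refine Finset.sum_congr rfl fun i _ => ?_
      rw [AlgHom.commutes, algebraMap_smul]
  · intro g x ij
    apply (h.EE hgk).injective
    rw [h.EE_rho hgk, hΦ, hΦ]
    refine Prod.ext ?_ ?_
    · simp only [mact, add_smul, mul_smul, smul_eq_mul]
    · simp only [mact, add_smul, mul_smul, smul_eq_mul]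
  · intro g x
    apply E'.injective
    rw [hE', hΨ, hΨ]
    refine Prod.ext ?_ ?_
    · simp only [mact, ← hRR, Finset.smul_sum, smul_eq_mul, map_add, map_mul, add_smul, mul_smul,
        Finset.sum_add_distrib]
    · simp only [mact, ← hRR, Finset.smul_sum, smul_eq_mul, map_add, map_mul, add_smul, mul_smul,
        Finset.sum_add_distrib]

end HG

end

end Fermat.Agent.FlT
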